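/-
P-MW / block MW-A1, row 725 MW-A1-PROD (helper64): the local computation
`Fermat.Agent.H84.MWDiv.ProductOrderStatement N`, unconditionally.

If `F` is a multiplicative function with divisor `D`, `G` is holomorphic of moderate growth
transforming by a parabolic-elliptic trivial character and `F * G ^ n` represents the element `f`
of the function field of `X₀(N)` over `ℂ`, then `f ≠ 0` and `ord_v f ≡ D v` modulo `n` at every
place `v`.
-/
import Fermat.Agent.H84.MWDiv.Interfaces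
import Fermat.Agent.H23.EsA.Unconditional
import Fermat.Agent.H50.EsALoc
import Fermat.Agent.H50.EsACuspFinal
import Fermat.Agent.H60.EsAGrpStatements
import Fermat.Agent.H94.EsA.AssemblyKer

set_option autoImplicit false

noncomputable section

open AlgebraicCurve UpperHalfPlane Function Filter Topology
open scoped MatrixGroups Manifold

namespace Fermat.Agent.H64

open Fermat.Agent.H23.EsA Fermat.Agent.H84.MWDiv

/-- Order at a point of `ℍ` of a product `F * G ^ n` of holomorphic functions. -/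
theorem mwdiv_order_mul_pow {F G : ℍ → ℂ} (hF : MDiff F) (hG : MDiff G) (n : ℕ) (z₀ : ℍ) :
    meromorphicOrderAt ((F * G ^ n) ∘ ofComplex) (z₀ : ℂ) =
      meromorphicOrderAt (F ∘ ofComplex) (z₀ : ℂ) +
        meromorphicOrderAt ((G ^ n) ∘ ofComplex) (z₀ : ℂ) := by
  have hFan := (Fermat.Agent.H61.analyticAt_comp_ofComplex hF z₀).meromorphicAt
  have hGan := (Fermat.Agent.H61.analyticAt_comp_ofComplex hG z₀).meromorphicAt
  have h1 : (F * G ^ n) ∘ ofComplex = (F ∘ ofComplex) * ((G ^ n) ∘ ofComplex) := by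
    funext z; simp
  have h2 : (G ^ n) ∘ ofComplex = (G ∘ ofComplex) ^ n := by funext z; simp
  rw [h1, meromorphicOrderAt_mul hFan (by rw [h2]; exact hGan.pow n)]

/-- A product `F * G ^ n` of nonzero holomorphic functions on `ℍ` is nonzero. -/
theorem mwdiv_mul_pow_ne_zero {F G : ℍ → ℂ} (hF : MDiff F) (hF0 : F ≠ 0) (hG : MDiff G)
    (hG0 : G ≠ 0) (n : ℕ) : F * G ^ n ≠ 0 := by
  intro h0
  obtain ⟨a, ha, -⟩ := Fermat.Agent.H50.powOrder 1 F hF hF0 UpperHalfPlane.I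
  obtain ⟨b, -, hb⟩ := Fermat.Agent.H50.powOrder n G hG hG0 UpperHalfPlane.I
  have h1 := mwdiv_order_mul_pow hF hG n UpperHalfPlane.I
  rw [ha, hb, h0] at h1
  have h2 : meromorphicOrderAt ((0 : ℍ → ℂ) ∘ ofComplex) ((UpperHalfPlane.I : ℍ) : ℂ) = ⊤ := by
    rw [meromorphicOrderAt_eq_top_iff]
    exact Filter.Eventually.of_forall (fun z => rfl)
  rw [h2] at h1
  exact WithTop.coe_ne_top (h1.trans (WithTop.coe_add _ _).symm).symm

/-- Order at the cusp of a product `A * H ^ n`. -/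
theorem mwdiv_cuspOrd_mul_pow {w : ℕ} {A H : ℍ → ℂ} (n : ℕ)
    (hA : MeromorphicAt (Periodic.cuspFunction (w : ℝ) (A ∘ ofComplex)) 0)
    (hH : MeromorphicAt (Periodic.cuspFunction (w : ℝ) (H ∘ ofComplex)) 0) :
    cuspOrd w (A * H ^ n) = cuspOrd w A + (n : WithTop ℤ) * cuspOrd w H := by
  unfold cuspOrd
  have hcongr : Periodic.cuspFunction (w : ℝ) ((A * H ^ n) ∘ ofComplex) =ᶠ[𝓝[≠] 0]
      (Periodic.cuspFunction (w : ℝ) (A ∘ ofComplex)) *
        (Periodic.cuspFunction (w : ℝ) (H ∘ ofComplex)) ^ n := by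
    filter_upwards [self_mem_nhdsWithin] with q hq
    have hq0 : q ≠ 0 := hq
    rw [Pi.mul_apply, Pi.pow_apply, Periodic.cuspFunction_eq_of_nonzero _ _ hq0,
      Periodic.cuspFunction_eq_of_nonzero _ _ hq0, Periodic.cuspFunction_eq_of_nonzero _ _ hq0]
    simp
  rw [meromorphicOrderAt_congr hcongr, meromorphicOrderAt_mul hA (hH.pow n),
    meromorphicOrderAt_pow hH]

/-- A function transforming by a parabolic-elliptic trivial character is `T ^ w`-periodic after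
translation to a cusp of width dividing `w`. -/
theorem mwdiv_periodic_at_cusp {N : ℕ} {G : ℍ → ℂ} {ψ : Char0 N}
    (hψ : HasCharacter N G ψ) (hψtriv : IsParEllTrivial N ψ) (δ : SL(2, ℤ)) (w : ℕ)
    (hmem : δ * ModularGroup.T ^ (w : ℤ) * δ⁻¹ ∈ CongruenceSubgroup.Gamma0 N) (z : ℍ) :
    (fun z : ℍ => G (δ • z)) (ModularGroup.T ^ w • z) = (fun z : ℍ => G (δ • z)) z := by
  have htr : |((δ * ModularGroup.T ^ (w : ℤ) * δ⁻¹ : SL(2, ℤ)) 0 0 +
      (δ * ModularGroup.T ^ (w : ℤ) * δ⁻¹ : SL(2, ℤ)) 1 1 : ℤ)| ≤ 2 := by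
    have h := Fermat.Agent.H94.EsA.trace_conj_T_zpow δ (w : ℤ)
    rw [Matrix.trace_fin_two] at h
    rw [h]
    norm_num
  have h1 : ψ ⟨δ * ModularGroup.T ^ (w : ℤ) * δ⁻¹, hmem⟩ = 1 := hψtriv ⟨_, hmem⟩ htr
  have h2 := hψ ⟨δ * ModularGroup.T ^ (w : ℤ) * δ⁻¹, hmem⟩ (δ • z)
  rw [h1] at h2
  have h3 : (δ * ModularGroup.T ^ (w : ℤ) * δ⁻¹) • (δ • z) = δ • (ModularGroup.T ^ w • z) := by
    rw [← mul_smul, inv_mul_cancel_right, mul_smul, zpow_natCast]
  show G (δ • (ModularGroup.T ^ w • z)) = G (δ • z)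
  rw [← h3]
  simpa using h2

/-- **[A1-PROD]** (row 725): the local computation of the order of `F * G ^ n`. -/
theorem productOrder (N : ℕ) [NeZero N] : ProductOrderStatement N := by
  intro n D F G χ ψ f hF hG hG0 hψ hψtriv hGgrow hrep
  obtain ⟨hFmd, hF0, hχ, hχtriv, hFgrow, hFpt, hFcusp⟩ := hF
  have hprod0 : F * G ^ n ≠ 0 := mwdiv_mul_pow_ne_zero hFmd hF0 hG hG0 n
  have hfL : ((f : ↥(FC N)) : LaurentSeries ℂ) ≠ 0 :=
    Fermat.Agent.H94.EsA.ne_zero_of_rep hrep hprod0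
  have hf0 : f ≠ 0 := fun h => hfL (by rw [h]; rfl)
  refine ⟨hf0, fun v => ?_⟩
  rcases (placesStatement N).2.2 v with ⟨z₀, s, ⟨hs, hv, hmult⟩, hstrong⟩ |
    ⟨δ, w, hw, hwk, hcusp⟩
  · -- the place of a point of `ℍ`
    have h1 := hv f (F * G ^ n) hf0 hrep
    obtain ⟨n₀, hn₀, hn₀pow⟩ := Fermat.Agent.H50.powOrder n G hG hG0 z₀
    rw [mwdiv_order_mul_pow hFmd hG n z₀, hFpt z₀ v s ⟨hs, hv, hmult⟩, hn₀pow] at h1
    have h2 : (s : ℤ) * D v + (n : ℤ) * n₀ = (s : ℤ) * v.ord f := by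
      have h3 : (((s : ℤ) * D v + ((n * n₀ : ℕ) : ℤ) : ℤ) : WithTop ℤ) =
          (((s : ℤ) * v.ord f : ℤ) : WithTop ℤ) := by
        rw [← h1, WithTop.coe_add]
      have h4 := WithTop.coe_injective h3
      rw [← h4]
      push_cast
      ring
    have hdvd : (s : ℤ) ∣ (n₀ : ℤ) := by
      apply hstrong
      intro γ hγ hfix
      have htr := Fermat.Agent.H60.fixTraceStatement γ z₀ hfix
      have hψ1 : ψ ⟨γ, hγ⟩ = 1 := hψtriv ⟨γ, hγ⟩ htr
      have h5 := Fermat.Agent.H50.multiplierChar G hG γ z₀ hfix 1 (fun z => by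
        have := hψ ⟨γ, hγ⟩ z
        rw [hψ1] at this
        simpa using this) n₀ hn₀
      rw [one_mul] at h5
      rw [zpow_natCast]
      exact h5
    obtain ⟨k, hk⟩ := hdvd
    refine ⟨k, ?_⟩
    have hsZ : (s : ℤ) ≠ 0 := by exact_mod_cast hs.ne'
    apply mul_left_cancel₀ hsZ
    rw [← h2, hk]
    ring
  · -- the place of a cusp
    have hmemw : δ * ModularGroup.T ^ (w : ℤ) * δ⁻¹ ∈ CongruenceSubgroup.Gamma0 N :=
      (hwk w).mpr dvd_rfl
    have : NeZero w := ⟨hw.ne'⟩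
    -- the function `A = F ∘ δ`
    have hAmd : MDiff (fun z : ℍ => F (δ • z)) := Fermat.Agent.H94.EsA.mdiff_comp_smul hFmd δ
    have hAper := mwdiv_periodic_at_cusp hχ hχtriv δ w hmemw
    obtain ⟨MA, CA, YA, hAg⟩ := hFgrow δ
    have hAmero := Fermat.Agent.H82.cm_meromorphicAt_cuspFunction_of_growth w
      (fun z : ℍ => F (δ • z)) hAmd hAper MA CA YA hAg
    -- the function `H = G ∘ δ`
    have hHmd : MDiff (fun z : ℍ => G (δ • z)) := Fermat.Agent.H94.EsA.mdiff_comp_smul hG δ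
    have hH0 : (fun z : ℍ => G (δ • z)) ≠ 0 := Fermat.Agent.H94.EsA.comp_smul_ne_zero hG0 δ
    have hHper := mwdiv_periodic_at_cusp hψ hψtriv δ w hmemw
    obtain ⟨MH, CH, YH, hHg⟩ := hGgrow δ
    have hHmero := Fermat.Agent.H82.cm_meromorphicAt_cuspFunction_of_growth w
      (fun z : ℍ => G (δ • z)) hHmd hHper MH CH YH hHg
    obtain ⟨k, hk, -⟩ := Fermat.Agent.H50.cuspPow n w hw (fun z : ℍ => G (δ • z)) hHmd hH0
      hHper ⟨MH, CH, YH, hHg⟩
    have h1 := hcusp f (F * G ^ n) hf0 hrep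
    have h2 : (fun z : ℍ => (F * G ^ n) (δ • z)) =
        (fun z : ℍ => F (δ • z)) * (fun z : ℍ => G (δ • z)) ^ n := by
      funext z; simp
    rw [h2, mwdiv_cuspOrd_mul_pow n hAmero hHmero, hFcusp δ v w ⟨hw, hwk, hcusp⟩, hk] at h1
    refine ⟨k, ?_⟩
    have h3 : (((D v + (n : ℤ) * k : ℤ)) : WithTop ℤ) = ((v.ord f : ℤ) : WithTop ℤ) := by
      rw [← h1]
      push_cast
      rfl
    exact (WithTop.coe_injective h3).symm

end Fermat.Agent.H64

end
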